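import Fermat.Agent.ZLoc2.Qbar
import Fermat.Agent.LLc.CU

/-!
# The `U`-operator input
-/

set_option autoImplicit false
set_option linter.unusedSectionVars false

noncomputable section

open AlgebraicCurve Module IntermediateField ModularCurve HahnSeries
open scoped Pointwise

namespace Fermat.Agent.ZLoc2

open Fermat.Agent.BadRed Fermat.Agent.LLp Fermat.Agent.Degen
open Fermat.Agent.FunField Fermat.Agent.FunField.PlaceLemmas Fermat.Agent.Deuring
open Fermat.Agent.HeckeRed

theorem pull_equiv {K F : Type*} [Field K] [IsAlgClosed K] [Field F] [Algebra K F] [IsFF K F]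
    (w : F ≃ₐ[K] F) (D : Divisor K F) :
    Degen.pull w.toAlgHom D = SemilinearAut.ofAlgAut w • D := by
  have hres : ∀ v : Place K F, res w.toAlgHom v = (SemilinearAut.ofAlgAut w)⁻¹ • v := by
    intro v
    apply place_ext
    intro f
    show w f ∈ v.toValuationSubring ↔
      f ∈ ((SemilinearAut.ofAlgAut w)⁻¹ • v.toValuationSubring : ValuationSubring F)
    rw [ValuationSubring.mem_pointwise_smul_iff_inv_smul_mem, inv_inv]
    rfl
  ext v
  rw [pull_apply, SemilinearAut.divisor_smul_apply, hres]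
  obtain ⟨f, hf0, hf⟩ := exists_ord_one (res w.toAlgHom v)
  have h1 := ord_res w.toAlgHom v f
  have h2 := SemilinearAut.ord_smul (SemilinearAut.ofAlgAut w) ((SemilinearAut.ofAlgAut w)⁻¹ • v) f
  rw [smul_inv_smul] at h2
  have h3 : v.ord (w.toAlgHom f) = ((SemilinearAut.ofAlgAut w)⁻¹ • v).ord f := h2
  rw [h3, ← hres, hf, mul_one] at h1
  rw [← h1, one_mul]

theorem alpha1_eq (L : Type*) [Field L] (N r : ℕ) [hr : Fact r.Prime] [NeZero N] :
    alpha1 L N r = inclNr L N r :=
  AlgHom.ext fun x => Subtype.ext (by rw [coe_alpha1, coe_inclNr])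

theorem hasU (p N : ℕ) [NeZero N] [hp : Fact p.Prime] (hpN : ¬ p ∣ N) : HasU p N hpN := by
  intro A i2 harch
  refine ⟨LLc.uData A (IsLocalRing.residue A) IsLocalRing.residue_surjective harch N p hpN, rfl,
    fun D => ?_⟩
  show LLc.dUU N p hpN D = _
  rw [LLc.dUU_apply, pull_equiv, alpha1_eq]

/-- **The subgroups `NN` in `J₀(N p)`.** -/
theorem exists_props (N p : ℕ) [NeZero N] [hp : Fact p.Prime] (hpN : ¬ p ∣ N)
    (A : ValuationSubring (AlgebraicClosure ℚ)) (hA : A.LiesOverPrime p)
    (h : ZAL.ExDiv p (N * p)) : ∃ NN, JProps N p A h NN :=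
  exists_JProps N p hpN (hasU p N hpN) A hA h

end Fermat.Agent.ZLoc2
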