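import Fermat.Agent.ZLoc2.Abs
import Fermat.Agent.BadRed.CPFinal
import Fermat.Agent.BadRed.NormConc2
import Fermat.Agent.LLc.LamConc

/-!
# The subgroups `NN` of torsion of `J₀(N r)` at a place above `r`, including `r`-power torsion
-/

set_option autoImplicit false
set_option linter.unusedSectionVars false

noncomputable section

open AlgebraicCurve Module IntermediateField ModularCurve HahnSeries

namespace Fermat.Agent.ZLoc2

open Fermat.Agent.BadRed Fermat.Agent.LLp Fermat.Agent.Degen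
open Fermat.Agent.FunField Fermat.Agent.FunField.PlaceLemmas Fermat.Agent.Deuring
open Fermat.Agent.Igusa Fermat.Agent.AtkinLehner Fermat.Agent.BadRed.CP Fermat.Agent.HeckeRed

section Abs

variable {L k F F₀ F₁ : Type*} [Field L] [Field k] [Field F] [Field F₀] [Field F₁] [Algebra L F]
  [Algebra L F₀] [Algebra k F₁] {T : TwoVal L k F F₁} [IsAlgClosed L] [IsAlgClosed k] [IsFF L F]
  [IsFF L F₀] {φ : F₁ ≃+* F₁} (ND : TwoVal.NormDat T F₀ φ) (α : F₀ →ₐ[L] F)

/-- Frobenius plus Atkin-Lehner. -/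
theorem smul_add_mem_NN (w : F ≃ₐ[L] F)
    (hw₁ : ∀ f b, T.V₂.HasRes f b → T.V₁.HasRes (w f) b)
    (hw₂ : ∀ f b, T.V₁.HasRes f b → T.V₂.HasRes (w f) b)
    (hNα : ∀ f, ND.Nα f = normAlong α f) (hNβ : ∀ f, ND.Nβ f = normAlong α (w f))
    (γ : TwoVal.GalV T) (hγ : ∀ a, γ.σ a = φ a) {n : ℕ} (hn : n ≠ 0)
    {x : Pic0 L F} (hx : x ∈ Pic0.torsion L F n) (h1 : pushPic α x = 0)
    (h2 : pushPic α (SemilinearAut.ofAlgAut w • x) = 0) :
    γ.g • x + SemilinearAut.ofAlgAut w • x ∈ T.NN n := by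
  obtain ⟨D, rfl⟩ := Pic0.mk_surjective x
  obtain ⟨f, hf, hD⟩ := exists_of_mem_torsion hx
  refine ⟨SemilinearAut.degZeroSMulHom γ.g D +
    SemilinearAut.degZeroSMulHom (SemilinearAut.ofAlgAut w) D, rfl, ?_⟩
  have hwf : w f ≠ 0 := by rwa [Ne, map_eq_zero]
  refine ND.inN_add w hw₁ hw₂ hn γ hγ hf hD
    (by rw [hNα]; exact exists_normAlong_eq α hf hD h1) ?_
  rw [hNβ]
  refine exists_normAlong_eq α (D := SemilinearAut.degZeroSMulHom (SemilinearAut.ofAlgAut w) D)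
    hwf (fun v => ?_) h2
  rw [SemilinearAut.coe_degZeroSMulHom, SemilinearAut.divisor_smul_apply, hD]
  have h3 := SemilinearAut.ord_smul (SemilinearAut.ofAlgAut w)
    ((SemilinearAut.ofAlgAut w)⁻¹ • v) f
  rw [smul_inv_smul] at h3
  exact h3.symm

end Abs

variable {L : Type*} [Field L] [IsAlgClosed L] [CharZero L] (A : ValuationSubring L)
  {κ : Type*} [Field κ] [IsAlgClosed κ] (π : A →+* κ) [IsLocalHom π] (hπ : Function.Surjective π)
  (harch : ArchA π)
  (N r : ℕ) [hr : Fact r.Prime] [hN : NeZero N] [CharP κ r] (hrN : ¬ r ∣ N)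

/-- coefficientwise action -/
def IsCoef {E : IntermediateField L (LaurentSeries L)} (g : SemilinearAut L E) (σ : L →+* L) :
    Prop := ∀ x : E, ((g • x : E) : LaurentSeries L) = coeffMap σ (x : LaurentSeries L)

/-- `σ` preserves `A` and acts by `s` on the residue field -/
def ActsBy (σ : L ≃+* L) (s : κ → κ) : Prop :=
  ∃ hσ : ∀ a, a ∈ A ↔ σ a ∈ A, ∀ a : A, π ⟨σ a, (hσ a).mp a.2⟩ = s (π a)

/-- the Atkin–Lehner involution on an intermediate field -/
def IsAL {E : IntermediateField L (LaurentSeries L)} (w : E ≃ₐ[L] E) : Prop :=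
  ∀ d (_ : d ∣ N) (h : ModDeg.vj L d ∈ E) (h' : ModDeg.vj L (d * r) ∈ E),
    w ⟨_, h⟩ = ⟨_, h'⟩ ∧ w ⟨_, h'⟩ = ⟨_, h⟩

theorem ww_eq {w : modularFunctionFieldFullC L (N * r) ≃ₐ[L] modularFunctionFieldFullC L (N * r)}
    (hw : IsAL N r w) : w = ww L N r hrN := by
  have h12 : (w : modularFunctionFieldFullC L (N * r) →+* modularFunctionFieldFullC L (N * r)) =
      (ww L N r hrN : modularFunctionFieldFullC L (N * r) →+*
        modularFunctionFieldFullC L (N * r)) := by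
    refine ringHom_ext _ _ (fun c => ?_) (fun d hd hd0 => ?_)
    · exact (AlgEquiv.commutes w c).trans (AlgEquiv.commutes (ww L N r hrN) c).symm
    · rcases dvd_mul_prime_cases hr.out hd with hd1 | ⟨e, he, rfl⟩
      · have e1 : ww L N r hrN ⟨ModDeg.vj L d, ModDeg.vj_mem_full L hd0 hd⟩ =
            ⟨ModDeg.vj L (d * r), ModDeg.vj_mem_full L (mul_ne_zero hd0 hr.out.ne_zero)
              (Nat.mul_dvd_mul_right hd1 r)⟩ := Subtype.ext (w_vj _ _ _ hd1 _)
        exact (hw d hd1 _ _).1.trans e1.symm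
      · have he0 : e ≠ 0 := left_ne_zero_of_mul hd0
        have e1 : ww L N r hrN ⟨ModDeg.vj L (e * r), ModDeg.vj_mem_full L hd0 hd⟩ =
            ⟨ModDeg.vj L e, ModDeg.vj_mem_full L he0 (he.trans (Dvd.intro r rfl))⟩ :=
          Subtype.ext (w_vj_mul _ _ _ he _)
        exact (hw e he _ _).2.trans e1.symm
  exact AlgEquiv.ext fun x => DFunLike.congr_fun h12 x

variable (hg : genusFF κ (modularFunctionFieldFullC κ N) =
    genusFF L (modularFunctionFieldFullC L N))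
  (d : DecAut A π) (hd : IsFrob d r)
  (𝒰 : UData (twoVal A π hπ harch N r hrN) r) (h𝒰w : 𝒰.w = ww L N r hrN)

/-- the action of `σ` on `F_{Nr}` as an element of `GalV` -/
def galV' {σ : L ≃+* L} {s : κ ≃+* κ} (hσ : ActsBy A π σ s)
    {g : SemilinearAut L (modularFunctionFieldFullC L (N * r))} (hg' : IsCoef g (σ : L →+* L)) :
    TwoVal.GalV (twoVal A π hπ harch N r hrN) :=
  galV A π hπ harch N r hrN hσ.choose hσ.choose_spec hg'

theorem coeffEquiv_refl (x : modularFunctionFieldFullC κ N) :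
    coeffEquiv (RingEquiv.refl κ) N x = x := by
  apply Subtype.ext
  rw [coe_coeffEquiv]
  exact coeffMap_id _

theorem smul_algebraMap_of_isCoef {E : IntermediateField L (LaurentSeries L)}
    {g : SemilinearAut L E} {σ : L →+* L} (hg : IsCoef g σ) (c : L) :
    g • (algebraMap L E c) = algebraMap L E (σ c) := by
  apply Subtype.ext
  rw [hg]
  exact ModularCurve.coeffMap_algebraMap σ c

/-- the list of properties of the subgroups `NN` -/
structure NNProps {E₀ E : IntermediateField L (LaurentSeries L)} [IsFF L E₀] [IsFF L E]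
    (α : E₀ →ₐ[L] E) (w : E ≃ₐ[L] E) (NN : ℕ → AddSubgroup (Pic0 L E)) : Prop where
  inertia : ∀ (n : ℕ) (σ : L ≃+* L), ActsBy A π σ id → ∀ g : SemilinearAut L E,
    IsCoef g (σ : L →+* L) → ∀ x ∈ Pic0.torsion L E n, g • x - x ∈ NN n
  frob : ∀ n : ℕ, n ≠ 0 → ∀ σ : L ≃+* L, ActsBy A π σ (fun a => a ^ r) → ∀ g : SemilinearAut L E,
    IsCoef g (σ : L →+* L) → ∀ x ∈ Pic0.torsion L E n, pushPic α x = 0 →
      pushPic α (SemilinearAut.ofAlgAut w • x) = 0 → g • x + SemilinearAut.ofAlgAut w • x ∈ NN n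
  sat : ∀ (m : ℕ) (x : Pic0 L E), x ∈ Pic0.torsion L E (r ^ (m + 1)) →
    r • x ∈ NN (r ^ (m + 1)) → r • x ∈ NN (r ^ m)
  cyc : ∀ ζ : L, IsPrimitiveRoot ζ r → ∀ (l : ℕ) (σ : L ≃+* L), ActsBy A π σ id → σ ζ = ζ ^ l →
    ∀ g : SemilinearAut L E, IsCoef g (σ : L →+* L) → ∀ x ∈ NN r, pushPic α x = 0 →
      pushPic α (SemilinearAut.ofAlgAut w • x) = 0 → g • x = l • x
  smul : ∀ (n : ℕ) (σ : L ≃+* L) (s : κ ≃+* κ), ActsBy A π σ s → ∀ g : SemilinearAut L E,
    IsCoef g (σ : L →+* L) → ∀ x ∈ NN n, g • x ∈ NN n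
  w_smul : ∀ (n : ℕ), ∀ x ∈ NN n, SemilinearAut.ofAlgAut w • x ∈ NN n
  torsion : ∀ n : ℕ, ∀ x ∈ NN n, x ∈ Pic0.torsion L E n

include hg d hd h𝒰w in
theorem exists_NN_aux
    (hdU : ∀ D, 𝒰.dU D = pull (inclNr L N r)
      (push (inclNr L N r) (SemilinearAut.ofAlgAut (ww L N r hrN) • D)) -
        SemilinearAut.ofAlgAut (ww L N r hrN) • D) :
    NNProps A π r (inclNr L N r) (ww L N r hrN) (twoVal A π hπ harch N r hrN).NN := by
  refine ⟨?_, ?_, ?_, ?_, ?_, ?_, ?_⟩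
  · intro n σ hσ g hg' x hx
    have h1 : ActsBy A π σ (RingEquiv.refl κ) := hσ
    exact (galV' A π hπ harch N r hrN h1 hg').smul_sub_mem_NN (coeffEquiv_refl N) hx
  · intro n hn σ hσ g hg' x hx hx1 hx2
    let s : κ ≃+* κ := frobeniusEquiv κ r
    have hs : ∀ a, s a = a ^ r := fun a => rfl
    have h1 : ActsBy A π σ s := hσ
    exact smul_add_mem_NN (normDat A π hπ harch N r hrN hs) (inclNr L N r) (ww L N r hrN)
      (fun f b hf => hasRes₁_w A π hπ harch N r hrN hf)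
      (fun f b hf => hasRes₂_w A π hπ harch N r hrN hf) (fun f => rfl) (fun f => rfl)
      (galV' A π hπ harch N r hrN h1 hg') (fun a => rfl) hn hx hx1 hx2
  · intro m x hx hx'
    exact nsmul_mem_NN hx hx'
  · intro ζ hζ l σ hσ hσζ g hg' x hx hx1 hx2
    have hζA : ζ ∈ A := mem_of_pow_eq_one hr.out.ne_zero hζ.pow_eq_one
    have h1 : ActsBy A π σ (RingEquiv.refl κ) := hσ
    have h2 : IsPrimitiveRoot (((⟨ζ, hζA⟩ : A)) : L) r := hζ
    let Λ : LamData (twoVal A π hπ harch N r hrN).toRData r :=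
      LLc.lamData (𝔇 := (twoVal A π hπ harch N r hrN).toRData) hr.out inferInstance h2
    have hπζ : π (⟨ζ, hζA⟩ : A) = 1 := by
      have h3 := Λ.π_lam
      have h4 : π ((⟨ζ, hζA⟩ : A) - 1) = 0 := h3
      rwa [map_sub, map_one, sub_eq_zero] at h4
    have hww : ∀ x : Pic0 L (modularFunctionFieldFullC L (N * r)),
        SemilinearAut.ofAlgAut 𝒰.w • SemilinearAut.ofAlgAut 𝒰.w • x = x := by
      intro x
      have h3 : 𝒰.w * 𝒰.w = 1 := AlgEquiv.ext fun y => 𝒰.hww y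
      rw [smul_smul, ← map_mul, h3, map_one, one_smul]
    rw [← h𝒰w] at hdU hx2
    refine inertia_NN (inclNr L N r) 𝒰 hdU (pen_hyp A π hπ harch N r hrN hg d hd) Λ hr.out hww
      hx hx1 hx2
      ((galV' A π hπ harch N r hrN h1 hg').toGalEl
        (smul_pen_t A π hπ harch N r hrN hg d hd (g := g) (σ := σ) hg')) (coeffEquiv_refl N)
      (c := ∑ j ∈ Finset.range l, (⟨ζ, hζA⟩ : A) ^ j) ?_ ?_
    · show g • (algebraMap L (modularFunctionFieldFullC L (N * r))
        (((⟨ζ, hζA⟩ : A) - 1 : A) : L)) = algebraMap L (modularFunctionFieldFullC L (N * r))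
          ((((⟨ζ, hζA⟩ : A) - 1) * ∑ j ∈ Finset.range l, (⟨ζ, hζA⟩ : A) ^ j : A) : L)
      rw [smul_algebraMap_of_isCoef hg', mul_geom_sum]
      congr 1
      push_cast
      show (σ : L →+* L) (ζ - 1) = ζ ^ l - 1
      rw [map_sub, map_one]
      congr 1
    · show π (∑ j ∈ Finset.range l, (⟨ζ, hζA⟩ : A) ^ j) = l
      rw [map_sum, Finset.sum_congr rfl fun j _ => by rw [map_pow, hπζ, one_pow],
        Finset.sum_const, Finset.card_range, nsmul_eq_mul, mul_one]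
  · intro n σ s hσ g hg' x hx
    exact (galV' A π hπ harch N r hrN hσ hg').smul_mem_NN hx
  · rintro n _ ⟨D, rfl, f, hf, hfD, ⟨a, ha, har⟩, ⟨b, hb, hbr⟩⟩
    refine ⟨SemilinearAut.degZeroSMulHom (SemilinearAut.ofAlgAut (ww L N r hrN)) D, rfl,
      ww L N r hrN f, by rwa [Ne, map_eq_zero], fun v => ?_,
      ⟨b, hb, hasRes₁_w A π hπ harch N r hrN hbr⟩, ⟨a, ha, hasRes₂_w A π hπ harch N r hrN har⟩⟩
    rw [SemilinearAut.coe_degZeroSMulHom, SemilinearAut.divisor_smul_apply, hfD]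
    have h3 := SemilinearAut.ord_smul (SemilinearAut.ofAlgAut (ww L N r hrN))
      ((SemilinearAut.ofAlgAut (ww L N r hrN))⁻¹ • v) f
    rw [smul_inv_smul] at h3
    exact h3.symm
  · intro n x hx
    exact TwoVal.NN_le_torsion hx

include hg hd hπ harch hrN in
/-- **The subgroups `NN`**, for fields equal to the modular function fields. -/
theorem exists_NN_of_eq
    (h𝒰 : ∃ 𝒰 : UData (twoVal A π hπ harch N r hrN) r, 𝒰.w = ww L N r hrN ∧
      ∀ D, 𝒰.dU D = pull (inclNr L N r)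
        (push (inclNr L N r) (SemilinearAut.ofAlgAut (ww L N r hrN) • D)) -
          SemilinearAut.ofAlgAut (ww L N r hrN) • D)
    {E₀ E : IntermediateField L (LaurentSeries L)} [IsFF L E₀] [IsFF L E]
    (hE₀ : E₀ = modularFunctionFieldFullC L N) (hE : E = modularFunctionFieldFullC L (N * r))
    (α : E₀ →ₐ[L] E) (hα : ∀ x : E₀, ((α x : E) : LaurentSeries L) = x) (w : E ≃ₐ[L] E)
    (hw : IsAL N r w) : ∃ NN, NNProps A π r α w NN := by
  subst hE₀ hE
  have h1 : α = inclNr L N r := AlgHom.ext fun x => Subtype.ext (by rw [hα, coe_inclNr])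
  have h2 := ww_eq N r hrN hw
  subst h1 h2
  obtain ⟨𝒰, h𝒰w, hdU⟩ := h𝒰
  exact ⟨_, exists_NN_aux A π hπ harch N r hrN hg d hd 𝒰 h𝒰w hdU⟩

end Fermat.Agent.ZLoc2
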