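import Fermat.Agent.ZLoc2.HasU
import Fermat.Agent.Tate.Input
import Fermat.Agent.TorsCmp.Surj

/-!
# The local structure at `p ∥ M` of the `p`-new part of the `p`-adic Tate module of `J₀(M)`
-/

set_option autoImplicit false
set_option linter.unusedSectionVars false
set_option linter.style.haveILetI false

noncomputable section

open ModularCurve AlgebraicCurve CongruenceSubgroup ModularCurve.Period
open scoped MatrixGroups Pointwise

namespace Fermat.Agent.ZLoc2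

open Fermat.Agent.X0Places Fermat.Agent.FunField Fermat.Agent.FunField.PlaceLemmas
open Fermat.Agent.TorsCmp Fermat.Agent.HeckeRed Fermat.Agent.Degen
open Fermat.Agent.HeckeHom Fermat.Agent.Tate

local notation "Qb" => AlgebraicClosure ℚ
local notation "GQ" => AlgebraicClosure ℚ ≃ₐ[ℚ] AlgebraicClosure ℚ

section Push

variable {K F : Type*} [Field K] [IsAlgClosed K] [Field F] [Algebra K F] [IsFF K F]

theorem pullPic_equiv (w : F ≃ₐ[K] F) (x : Pic0 K F) :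
    pullPic w.toAlgHom x = SemilinearAut.ofAlgAut w • x := by
  obtain ⟨D, rfl⟩ := Pic0.mk_surjective x
  rw [pullPic_mk]
  exact congrArg Pic0.mk (Subtype.ext (pull_equiv w D))

theorem pushPic_equiv (w : F ≃ₐ[K] F) (hw : ∀ x, w (w x) = x) (x : Pic0 K F) :
    pushPic w.toAlgHom x = SemilinearAut.ofAlgAut w • x := by
  have h1 : w.symm = w := AlgEquiv.ext fun x => by rw [AlgEquiv.symm_apply_eq, hw]
  rw [← pullPic_equiv, pullPic_equiv_eq, h1]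

/-- the two push-forwards are exchanged by the involution -/
theorem pushPic_comp_equiv {F₀ : Type*} [Field F₀] [Algebra K F₀] [IsFF K F₀]
    (α β : F₀ →ₐ[K] F) (w : F ≃ₐ[K] F) (hw : ∀ x, w (w x) = x) (h : ∀ x, w (α x) = β x)
    (x : Pic0 K F) : pushPic α (SemilinearAut.ofAlgAut w • x) = pushPic β x := by
  rw [← pushPic_equiv w hw, pushPic_pushPic]
  exact pushPic_congr (AlgHom.ext h) x

end Push

/-- `w ∘ α = β` -/
theorem wF_alpha_eq (N p : ℕ) [NeZero N] [hp : Fact p.Prime] (hpN : ¬ p ∣ N)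
    (h : ZAL.ExDiv p (N * p)) {E₀ E : IntermediateField Qb (LaurentSeries Qb)}
    (hE₀ : E₀ = modularFunctionFieldFullC Qb N) (hE : E = modularFunctionFieldFullC Qb (N * p))
    (α β : E₀ →ₐ[Qb] E) (hα : ∀ x, (α x : LaurentSeries Qb) = x)
    (hβ : ∀ x, (β x : LaurentSeries Qb) =
      (haveI : NeZero p := ⟨hp.out.ne_zero⟩; qExpand Qb p (x : LaurentSeries Qb)))
    (w : E ≃ₐ[Qb] E) (hw : IsAL N p w) (x : E₀) : w (α x) = β x := by
  subst hE₀ hE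
  rw [ww_eq N p hpN hw]
  exact (AtkinLehner.beta_eq _ _ hpN α β hα hβ x).symm

variable (p : ℕ) [hp : Fact p.Prime] (M : ℕ) [NeZero M]

/-- the Tate module -/
abbrev LamP : Type := parabolicHoms ℤ_[p] (Gamma0 M) ℤ_[p]

/-- components -/
def pjP (n : ℕ) : LamP p M →+ JZero M :=
  (tor p (JZero M) n).subtype.comp
    (Tate.pr (comparisonJ M p) (parabolicHoms ℤ_[p] (Gamma0 M) ℤ_[p]) (comparisonJ_mem_iff M p) n)

/-- Galois action -/
def lamR : GQ →* Module.End ℤ_[p] (LamP p M) :=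
  Tate.rep (comparisonJ M p) (parabolicHoms ℤ_[p] (Gamma0 M) ℤ_[p]) (comparisonJ_mem_iff M p) GQ

variable {p M}

theorem pjP_lamR (σ : GQ) (n : ℕ) (φ : LamP p M) : pjP p M n (lamR p M σ φ) = σ • pjP p M n φ :=
  pr_rep (comparisonJ M p) _ (comparisonJ_mem_iff M p) σ n φ

theorem p_smul_pjP (n : ℕ) (φ : LamP p M) : p • pjP p M (n + 1) φ = pjP p M n φ :=
  p_smul_pr _ _ (comparisonJ_mem_iff M p) n φ

theorem pow_pjP (n : ℕ) (φ : LamP p M) : p ^ n • pjP p M n φ = 0 :=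
  (mem_tor p).1 (Tate.pr (comparisonJ M p) _ (comparisonJ_mem_iff M p) n φ).2

theorem ext_pjP {φ ψ : LamP p M} (h : ∀ n, pjP p M n φ = pjP p M n ψ) : φ = ψ :=
  ext_pr _ _ (comparisonJ_mem_iff M p) h

theorem pjP_smul (n : ℕ) (a : ℤ_[p]) (φ : LamP p M) :
    pjP p M n (a • φ) = (PadicInt.toZModPow n a).val • pjP p M n φ := by
  have h := congrArg Subtype.val (pr_smul (comparisonJ M p) _ (comparisonJ_mem_iff M p) n a φ)
  rw [AddSubgroup.coe_nsmul] at h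
  exact h

theorem pjP_natCast_smul (n : ℕ) (a : ℕ) (φ : LamP p M) :
    pjP p M n ((a : ℤ_[p]) • φ) = a • pjP p M n φ := by
  have h1 : (a : ℤ_[p]) • φ = a • φ := Nat.cast_smul_eq_nsmul _ a φ
  rw [h1, map_nsmul]

theorem exists_of_pjP_eq_zero (n : ℕ) {φ : LamP p M} (h : pjP p M n φ = 0) :
    ∃ ψ : LamP p M, φ = ((p : ℤ_[p]) ^ n) • ψ :=
  exists_eq_smul_of_pr_eq_zero _ _ (comparisonJ_mem_iff M p)
    (fun ψ hψ => TateInput.saturated ψ hψ) n φ (Subtype.ext h)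

/-- **Z-LOC2** (uniformly in `p`): the local structure at `p` of the `p`-new part. -/
theorem exists_K {N : ℕ} [NeZero N] (hM : M = N * p) (h : ZAL.ExDiv p M)
    (A : ValuationSubring Qb) (hA : A.LiesOverPrime p)
    (α β : modularFunctionFieldBar N →ₐ[Qb] modularFunctionFieldBar M)
    (hα : ∀ x, (α x : LaurentSeries Qb) = x)
    (hβ : ∀ x, (β x : LaurentSeries Qb) =
      (haveI : NeZero p := ⟨hp.out.ne_zero⟩; qExpand Qb p (x : LaurentSeries Qb)))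
    (w : LamP p M →+ LamP p M)
    (hw : ∀ n φ, pjP p M n (w φ) = ZAL.wS iotaQbar h • pjP p M n φ)
    (Λ : Submodule ℤ_[p] (LamP p M)) (hsat : ∀ x, (p : ℤ_[p]) • x ∈ Λ → x ∈ Λ)
    (hgal : ∀ σ : GQ, ∀ x ∈ Λ, lamR p M σ x ∈ Λ) (hwΛ : ∀ x ∈ Λ, w x ∈ Λ)
    (hnew : ∀ x ∈ Λ, ∀ n, pushPic α (pjP p M n x) = 0 ∧ pushPic β (pjP p M n x) = 0) :
    ∃ K : Submodule ℤ_[p] (LamP p M), K ≤ Λ ∧
      (∀ x ∈ Λ, (p : ℤ_[p]) • x ∈ K → x ∈ K) ∧
      (∀ s ∈ A.inertiaSubgroupIn ℚ, ∀ x ∈ Λ, lamR p M s x - x ∈ K) ∧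
      (∀ Φ : GQ, A.IsFrobeniusAt Φ p → ∀ x ∈ Λ, lamR p M Φ x + w x ∈ K) ∧
      (∀ ζ : Qb, IsPrimitiveRoot ζ p → ∀ l : ℕ, ∀ s ∈ A.inertiaSubgroupIn ℚ, s ζ = ζ ^ l →
        ∀ x ∈ K, ∃ y ∈ Λ, lamR p M s x - (l : ℤ_[p]) • x = (p : ℤ_[p]) • y) ∧
      (∀ τ ∈ A.decompositionSubgroup ℚ, ∀ x ∈ K, lamR p M τ x ∈ K) ∧
      (∀ x ∈ K, w x ∈ K) := by
  subst hM
  have hpN : ¬ p ∣ N := by
    have h1 := h.cop
    rw [Nat.mul_div_cancel _ hp.out.pos] at h1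
    exact (Nat.Prime.coprime_iff_not_dvd hp.out).mp h1
  obtain ⟨NN, H⟩ := exists_props N p hpN A hA h
  have hα' : α = heckeAlphaBar Qb N p :=
    AlgHom.ext fun x => Subtype.ext (by rw [hα, coe_heckeAlphaBar])
  have hww : ∀ x, ZAL.wF iotaQbar h (ZAL.wF iotaQbar h x) = x := ZAL.wF_wF iotaQbar h
  have hαβ : ∀ x, ZAL.wF iotaQbar h (α x) = β x :=
    wF_alpha_eq N p hpN h (laurentBaseChange_full Qb N) (laurentBaseChange_full Qb (N * p)) α β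
      hα hβ (ZAL.wF iotaQbar h) (isAL_wF iotaQbar N p hpN h)
  have n1 : ∀ x ∈ Λ, ∀ n, pushPic (heckeAlphaBar Qb N p) (pjP p (N * p) n x) = 0 := fun x hx n => by
    rw [← hα']; exact (hnew x hx n).1
  have n2 : ∀ x ∈ Λ, ∀ n, pushPic (heckeAlphaBar Qb N p)
      (ZAL.wS iotaQbar h • pjP p (N * p) n x) = 0 := fun x hx n => by
    rw [← hα']
    exact (pushPic_comp_equiv α β (ZAL.wF iotaQbar h) hww hαβ _).trans (hnew x hx n).2
  let K : Submodule ℤ_[p] (LamP p (N * p)) :=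
    { carrier := {x | x ∈ Λ ∧ ∀ n, pjP p (N * p) n x ∈ NN (p ^ n)}
      zero_mem' := ⟨Λ.zero_mem, fun n => by rw [map_zero]; exact zero_mem _⟩
      add_mem' := fun {a b} ha hb => ⟨Λ.add_mem ha.1 hb.1, fun n => by
        rw [map_add]; exact add_mem (ha.2 n) (hb.2 n)⟩
      smul_mem' := fun a x hx => ⟨Λ.smul_mem a hx.1, fun n => by
        rw [pjP_smul]; exact AddSubgroup.nsmul_mem _ (hx.2 n) _⟩ }
  have hK : ∀ {x}, x ∈ K ↔ x ∈ Λ ∧ ∀ n, pjP p (N * p) n x ∈ NN (p ^ n) := Iff.rfl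
  refine ⟨K, fun x hx => hx.1, ?_, ?_, ?_, ?_, ?_, ?_⟩
  · intro x hx hpx
    refine hK.mpr ⟨hx, fun n => ?_⟩
    rw [← p_smul_pjP]
    refine H.sat n _ (pow_pjP (n + 1) x) ?_
    have h1 := (hK.mp hpx).2 (n + 1)
    rwa [pjP_natCast_smul] at h1
  · intro s hs x hx
    refine hK.mpr ⟨Λ.sub_mem (hgal s x hx) hx, fun n => ?_⟩
    rw [map_sub, pjP_lamR]
    exact H.inertia _ s hs _ (pow_pjP n x)
  · intro Φ hΦ x hx
    refine hK.mpr ⟨Λ.add_mem (hgal Φ x hx) (hwΛ x hx), fun n => ?_⟩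
    rw [map_add, pjP_lamR, hw]
    exact H.frob _ (pow_ne_zero n hp.out.ne_zero) Φ hΦ _ (pow_pjP n x) (n1 x hx n) (n2 x hx n)
  · intro ζ hζ l s hs hsζ x hx
    have h0 : pjP p (N * p) 1 (lamR p (N * p) s x - (l : ℤ_[p]) • x) = 0 := by
      have h1 := hx.2 1
      rw [pow_one] at h1
      rw [map_sub, pjP_lamR, pjP_natCast_smul, H.cyc ζ hζ l s hs hsζ _ h1 (n1 x hx.1 1)
        (n2 x hx.1 1), sub_self]
    obtain ⟨y, hy⟩ := exists_of_pjP_eq_zero 1 h0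
    rw [pow_one] at hy
    refine ⟨y, hsat y ?_, hy⟩
    rw [← hy]
    exact Λ.sub_mem (hgal s x hx.1) (Λ.smul_mem _ hx.1)
  · intro τ hτ x hx
    refine hK.mpr ⟨hgal τ x hx.1, fun n => ?_⟩
    rw [pjP_lamR]
    exact H.smul _ τ hτ _ (hx.2 n)
  · intro x hx
    refine hK.mpr ⟨hwΛ x hx.1, fun n => ?_⟩
    rw [hw]
    exact H.w_smul _ _ (hx.2 n)

end Fermat.Agent.ZLoc2
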