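import Fermat.Agent.LLp.Contract
import Fermat.Agent.BadRed.PicLevel

/-!
# Torsion of order a power of the residue characteristic: saturation and inertia
-/

set_option autoImplicit false
set_option linter.unusedSectionVars false

noncomputable section

open AlgebraicCurve Module IntermediateField

namespace Fermat.Agent.ZLoc2

open Fermat.Agent.BadRed Fermat.Agent.LLp Fermat.Agent.Degen
open Fermat.Agent.FunField Fermat.Agent.FunField.PlaceLemmas Fermat.Agent.Deuring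

variable {L k F F₁ : Type*} [Field L] [Field k] [Field F] [Field F₁] [Algebra L F] [Algebra k F₁]

section Res

variable {A : ValuationSubring L} {π : A →+* k} {V : ResVal A π F F₁}

theorem exists_root [IsAlgClosed k] {p : ℕ} [hp : Fact p.Prime] [CharP k p] {m : ℕ} {f h : F} {c : L}
    (hc : c ≠ 0) (hf : f ≠ 0) (hh : h ≠ 0) {a : F₁} (ha : a ≠ 0)
    (hr : V.HasRes (c • (f ^ p * h ^ p ^ (m + 1))) (a ^ p ^ (m + 1))) :
    ∃ b : F₁, b ≠ 0 ∧ V.HasRes f (b ^ p ^ m) := by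
  obtain ⟨a', ha', har'⟩ := ResVal.exists_hasRes (V := V) hf
  obtain ⟨e, he, her⟩ := ResVal.exists_hasRes (V := V) hh
  have h1 := ((har'.pow p).mul (her.pow (p ^ (m + 1)))).smul hc
  obtain ⟨κ, hκ, e1⟩ := h1.unique hr (mul_ne_zero (pow_ne_zero _ ha') (pow_ne_zero _ he))
    (pow_ne_zero _ ha)
  have hppos : 0 < p ^ (m + 1) := pow_pos hp.out.pos _
  obtain ⟨κ', hκ'⟩ := IsAlgClosed.exists_pow_nat_eq κ⁻¹ hppos
  have hκ0 : κ' ≠ 0 := by
    rintro rfl
    rw [zero_pow hppos.ne'] at hκ'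
    exact inv_ne_zero hκ hκ'.symm
  refine ⟨κ' • (a * e⁻¹), smul_ne_zero hκ0 (mul_ne_zero ha (inv_ne_zero he)), ?_⟩
  haveI : CharP F₁ p := charP_of_injective_algebraMap (algebraMap k F₁).injective p
  have h2 : a' = (κ' • (a * e⁻¹)) ^ p ^ m := by
    apply frobenius_inj F₁ p
    rw [frobenius_def, frobenius_def, ← pow_mul, ← pow_succ, smul_pow, hκ', mul_pow, e1,
      inv_pow, smul_mul_assoc, smul_smul, inv_mul_cancel₀ hκ, one_smul, mul_assoc,
      mul_inv_cancel₀ (pow_ne_zero _ he), mul_one]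
  rw [← h2]
  exact har'

end Res

section Sat

variable {T : TwoVal L k F F₁} [IsAlgClosed L] [IsFF L F]

theorem eq_const_smul {D E : Divisor L F} {f g : F} (hf : f ≠ 0) (hg : g ≠ 0)
    (h1 : ∀ v : Place L F, D v = v.ord f) (h2 : ∀ v : Place L F, D v = v.ord g) :
    ∃ c : L, c ≠ 0 ∧ g = c • f := by
  obtain ⟨c, hc, e⟩ := IsDiv.eq_const (D := D) (f := g) (g := f) ⟨hg, h2⟩ ⟨hf, h1⟩
  exact ⟨c, hc, by rw [Algebra.smul_def]; exact e⟩

/-- **Saturation.** -/
theorem nsmul_mem_NN [IsAlgClosed k] {p : ℕ} [hp : Fact p.Prime] [CharP k p] {m : ℕ} {x : Pic0 L F}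
    (hx : x ∈ Pic0.torsion L F (p ^ (m + 1))) (h : p • x ∈ T.NN (p ^ (m + 1))) :
    p • x ∈ T.NN (p ^ m) := by
  obtain ⟨E, rfl⟩ := Pic0.mk_surjective x
  obtain ⟨f, hf, hfE⟩ := exists_of_mem_torsion hx
  obtain ⟨D, hD, g, hg, hgD, ⟨a, ha, har⟩, ⟨b, hb, hbr⟩⟩ := h
  have h1 : Pic0.mk (D - p • E) = 0 := by
    show Pic0.mk D - p • Pic0.mk E = 0
    rw [hD, sub_self]
  obtain ⟨h, hh, hhD⟩ := exists_of_mk_eq_zero h1
  have hD' : ∀ v : Place L F, (D : Divisor L F) v = p * (E : Divisor L F) v + v.ord h := by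
    intro v
    have h2 := hhD v
    have h3 : ((D - p • E : Divisor.degZero (K := L) (F := F)) : Divisor L F) v =
        (D : Divisor L F) v - p * (E : Divisor L F) v := by
      show (D : Divisor L F) v - ((p • E : Divisor.degZero (K := L) (F := F)) : Divisor L F) v = _
      congr 1
    rw [h3] at h2
    linarith
  have hfh : f ^ p * h ^ p ^ (m + 1) ≠ 0 := mul_ne_zero (pow_ne_zero _ hf) (pow_ne_zero _ hh)
  obtain ⟨c, hc, e⟩ := eq_const_smul (D := p ^ (m + 1) • (D : Divisor L F)) (E := 0) hfh hg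
    (fun v => by
      rw [Finsupp.smul_apply, nsmul_eq_mul, hD', v.ord_mul (pow_ne_zero _ hf) (pow_ne_zero _ hh),
        ord_pow, ord_pow, ← hfE v]
      push_cast
      ring)
    (fun v => by rw [Finsupp.smul_apply, nsmul_eq_mul, hgD])
  rw [e] at har hbr
  obtain ⟨b₁, hb₁, hr₁⟩ := exists_root hc hf hh ha har
  obtain ⟨b₂, hb₂, hr₂⟩ := exists_root hc hf hh hb hbr
  refine ⟨p • E, rfl, f, hf, fun v => ?_, ⟨b₁, hb₁, hr₁⟩, ⟨b₂, hb₂, hr₂⟩⟩
  have h3 : ((p • E : Divisor.degZero (K := L) (F := F)) : Divisor L F) v =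
      p * (E : Divisor L F) v := by
    show (p • (E : Divisor L F)) v = _
    rw [Finsupp.smul_apply, nsmul_eq_mul]
  rw [h3, ← hfE v]
  push_cast
  ring

end Sat

section Inertia

variable {T : TwoVal L k F F₁} [IsAlgClosed L] [IsAlgClosed k] [IsFF L F] [IsFF k F₁]
  {F₀ : Type*} [Field F₀] [Algebra L F₀] [IsFF L F₀] (α : F₀ →ₐ[L] F)
  {n : ℕ} (𝒰 : UData T n)
  (hdU : ∀ D, 𝒰.dU D = pull α (push α (SemilinearAut.ofAlgAut 𝒰.w • D)) -
    SemilinearAut.ofAlgAut 𝒰.w • D)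

/-- linear equivalence from classes -/
theorem lin_of_mk {D E : Divisor.degZero (K := L) (F := F)} (h : Pic0.mk D = Pic0.mk E) :
    Lin (D : Divisor L F) (E : Divisor L F) := by
  obtain ⟨f, hf, hfD⟩ := exists_of_mk_eq_zero (D := D - E) (by
    show Pic0.mk D - Pic0.mk E = 0
    rw [h, sub_self])
  exact ⟨f, hf, hfD⟩

theorem mk_of_lin {D E : Divisor.degZero (K := L) (F := F)}
    (h : Lin (D : Divisor L F) (E : Divisor L F)) : Pic0.mk D = Pic0.mk E := by
  obtain ⟨f, hf, hfD⟩ := h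
  refine Pic0.mk_eq_of_ord hf fun v => ?_
  rw [← hfD v, Finsupp.sub_apply]
  ring

/-- `U` on divisors of degree zero -/
def uZ (W : SemilinearAut L F) (D : Divisor.degZero (K := L) (F := F)) :
    Divisor.degZero (K := L) (F := F) :=
  pullZ α (pushZ α (SemilinearAut.degZeroSMulHom W D)) - SemilinearAut.degZeroSMulHom W D

theorem mk_uZ (W : SemilinearAut L F) (D : Divisor.degZero (K := L) (F := F)) :
    Pic0.mk (uZ α W D) = pullPic α (pushPic α (W • Pic0.mk D)) - W • Pic0.mk D := rfl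

theorem lin_dU_dU (W : SemilinearAut L F) (hWW : ∀ x : Pic0 L F, W • W • x = x)
    {dU : Divisor L F →+ Divisor L F}
    (hdU : ∀ D, dU D = pull α (push α (W • D)) - W • D)
    {D : Divisor.degZero (K := L) (F := F)} (h1 : pushPic α (Pic0.mk D) = 0)
    (h2 : pushPic α (W • Pic0.mk D) = 0) : Lin (dU (dU (D : Divisor L F))) (D : Divisor L F) := by
  have hc : ∀ E : Divisor.degZero (K := L) (F := F),
      dU (E : Divisor L F) = (uZ α W E : Divisor L F) := fun E => hdU E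
  rw [hc, hc]
  apply lin_of_mk
  rw [mk_uZ, mk_uZ, h2, map_zero, zero_sub]
  have h3 : W • (-(W • Pic0.mk D)) = -Pic0.mk D := by
    rw [smul_neg, hWW]
  rw [h3, map_neg, h1, neg_zero, map_zero, zero_sub, neg_neg]

variable {p : FrobPencil T.toRData} {g g₁ : ℤ} (H : FrobPencil.Hyp p g g₁)
  [CharP k n] (Λ : LamData T.toRData n)

include hdU H in
/-- **Inertia acts through the cyclotomic character** on classes with both residues `n`-th
powers and killed by both push-forwards. -/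
theorem inertia_NN (hn : n.Prime) (hww : ∀ x : Pic0 L F,
      SemilinearAut.ofAlgAut 𝒰.w • SemilinearAut.ofAlgAut 𝒰.w • x = x)
    {x : Pic0 L F} (hx : x ∈ T.NN n) (h1 : pushPic α x = 0)
    (h2 : pushPic α (SemilinearAut.ofAlgAut 𝒰.w • x) = 0) (γ : GalEl p) (hγ : ∀ a, γ.σ a = a)
    {c : T.toRData.A}
    (hc : γ.g • (algebraMap L F (Λ.lam : L)) = algebraMap L F ((Λ.lam * c : T.toRData.A) : L))
    {l : ℕ} (hl : T.toRData.π c = l) : γ.g • x = l • x := by
  obtain ⟨D, rfl, f, hf, hfD, ⟨a, ha, har⟩, ⟨b, hb, hbr⟩⟩ := hx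
  have hdiv : IsDiv (n • (D : Divisor L F)) f := ⟨hf, fun v => by
    rw [Finsupp.smul_apply, nsmul_eq_mul, hfD]⟩
  have hwf : 𝒰.w f ≠ 0 := by rwa [Ne, map_eq_zero]
  set W := SemilinearAut.ofAlgAut 𝒰.w with hW
  have hdiv' : IsDiv (n • (W • (D : Divisor L F))) (𝒰.w f) := by
    refine ⟨hwf, fun v => ?_⟩
    rw [Finsupp.smul_apply, nsmul_eq_mul, SemilinearAut.divisor_smul_apply, hfD]
    have h3 := SemilinearAut.ord_smul W (W⁻¹ • v) f
    rw [smul_inv_smul] at h3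
    exact h3.symm
  have hWD : ((SemilinearAut.degZeroSMulHom W D : Divisor.degZero (K := L) (F := F)) :
      Divisor L F) = W • (D : Divisor L F) := rfl
  have hL1 := lin_dU_dU α W hww hdU h1 h2
  have hL2 : Lin (𝒰.dU (𝒰.dU (W • (D : Divisor L F)))) (W • (D : Divisor L F)) := by
    rw [← hWD]
    refine lin_dU_dU α W hww hdU h2 ?_
    show pushPic α (W • W • Pic0.mk D) = 0
    rw [hww]
    exact h1
  obtain ⟨D₀, hD₀, hlin⟩ := 𝒰.isFine H.harch hn Λ hdiv hdiv' ha hb har (𝒰.hasRes_w hbr) hL1 hL2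
  -- `D₀` has degree zero
  have hdeg : D₀ ∈ Divisor.degZero (K := L) (F := F) := by
    obtain ⟨h, hh, hhD⟩ := hlin
    have h3 : D₀ = (D : Divisor L F) - dv (K := L) h hh := by
      ext v
      have h4 := hhD v
      rw [Finsupp.sub_apply] at h4
      rw [Finsupp.sub_apply, dv_apply]
      linarith
    rw [h3]
    refine sub_mem D.2 ?_
    rw [Divisor.mem_degZero, degree_dv]
  have e1 : Pic0.mk D = Pic0.mk ⟨D₀, hdeg⟩ := mk_of_lin (E := ⟨D₀, hdeg⟩) hlin
  obtain ⟨w, hw, hwD⟩ := hD₀.inertia H hn γ hγ hc hl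
  rw [e1, SemilinearAut.pic0_smul_mk]
  show _ = Pic0.mk (l • (⟨D₀, hdeg⟩ : Divisor.degZero (K := L) (F := F)))
  refine Pic0.mk_eq_of_ord hw fun v => ?_
  rw [← hwD v]
  show (γ.g • D₀) v = (l • D₀) v + _
  rw [Finsupp.sub_apply]
  ring

end Inertia

end Fermat.Agent.ZLoc2
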