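import Fermat.Agent.ZLoc2.Conc
import Fermat.Agent.ZAL.WHecke
import Fermat.Agent.Cusps.GenusQb
import Fermat.Agent.BadRed.Arch
import Fermat.Agent.HeckeRed.Package
import Fermat.Agent.Frob.Exists
import Fermat.Agent.Frob.QbarInst

/-!
# The subgroups `NN` in `J₀(N p)`
-/

set_option autoImplicit false
set_option linter.unusedSectionVars false

noncomputable section

open AlgebraicCurve Module IntermediateField ModularCurve HahnSeries
open scoped Pointwise

namespace Fermat.Agent.ZLoc2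

open Fermat.Agent.BadRed Fermat.Agent.LLp Fermat.Agent.Degen
open Fermat.Agent.FunField Fermat.Agent.FunField.PlaceLemmas Fermat.Agent.Deuring
open Fermat.Agent.BadRed.CP Fermat.Agent.X0Places Fermat.Agent.TorsCmp Fermat.Agent.HeckeRed

local notation "Qb" => AlgebraicClosure ℚ
local notation "GQ" => AlgebraicClosure ℚ ≃ₐ[ℚ] AlgebraicClosure ℚ

section Acts

variable {A : ValuationSubring Qb}

theorem mem_iff_of_dec {τ : GQ} (hτ : τ ∈ A.decompositionSubgroup ℚ) (a : Qb) :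
    a ∈ A ↔ τ.toRingEquiv a ∈ A := by
  have h1 : τ • A = A := hτ
  have h2 : τ • a ∈ τ • A ↔ a ∈ A := ValuationSubring.smul_mem_pointwise_smul_iff
  rw [h1] at h2
  exact h2.symm

theorem actsBy_dec {τ : GQ} (hτ : τ ∈ A.decompositionSubgroup ℚ) :
    ActsBy A (IsLocalRing.residue A) τ.toRingEquiv
      (MulSemiringAction.toRingEquiv (A.decompositionSubgroup ℚ) (IsLocalRing.ResidueField A)
        ⟨τ, hτ⟩) :=
  ⟨mem_iff_of_dec hτ, fun _ => rfl⟩

theorem actsBy_inertia {σ : GQ} (hσ : σ ∈ A.inertiaSubgroupIn ℚ) :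
    ActsBy A (IsLocalRing.residue A) σ.toRingEquiv id := by
  obtain ⟨τ, hτ, rfl⟩ := hσ
  refine ⟨mem_iff_of_dec τ.2, fun a => ?_⟩
  have h1 : MulSemiringAction.toRingAut (A.decompositionSubgroup ℚ)
      (IsLocalRing.ResidueField A) τ = 1 := hτ
  exact congrArg (fun e => e (IsLocalRing.residue A a)) h1

theorem actsBy_frob {p : ℕ} {σ : GQ} (hσ : A.IsFrobeniusAt σ p) :
    ActsBy A (IsLocalRing.residue A) σ.toRingEquiv (fun a => a ^ p) :=
  ⟨mem_iff_of_dec hσ.mem_decompositionSubgroup, fun a =>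
    hσ.smul_residue_eq (IsLocalRing.residue A a)⟩

/-- the element of the decomposition group as a `DecAut`. -/
def decAut {τ : GQ} (hτ : τ ∈ A.decompositionSubgroup ℚ) : DecAut A (IsLocalRing.residue A) where
  σ := τ.toRingEquiv
  τ := MulSemiringAction.toRingEquiv (A.decompositionSubgroup ℚ) (IsLocalRing.ResidueField A)
        ⟨τ, hτ⟩
  mem_iff a := (mem_iff_of_dec hτ a).symm
  res _ := rfl

end Acts

section AL

variable {L : Type*} [Field L] [Algebra ℚ L]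

theorem jdF_eq_vj (M d : ℕ) [NeZero d] (hd : d ∣ M) (h : ModDeg.vj L d ∈ FF L M) :
    (⟨ModDeg.vj L d, h⟩ : FF L M) = jdF L M d hd := by
  apply Subtype.ext
  show ModDeg.vj L d = coeffEmb L (qExpand ℚ d jq)
  rw [ModDeg.vj_eq, ← jqModC_rat, coeffEmb, coeffMap_qExpand, coeffMap_jqModC]

theorem isAL_wF (ι : L →+* ℂ) (N p : ℕ) [NeZero N] [hp : Fact p.Prime] (hpN : ¬ p ∣ N)
    (h : ZAL.ExDiv p (N * p)) : IsAL N p (ZAL.wF ι h) := by
  intro d hd h1 h2
  have hd0 : NeZero d := ⟨by rintro rfl; exact NeZero.ne N (zero_dvd_iff.mp hd)⟩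
  have hp0 : p ≠ 0 := hp.out.ne_zero
  have hdp : NeZero (d * p) := ⟨mul_ne_zero hd0.out hp0⟩
  have hpd : ¬ p ∣ d := fun h0 => hpN (h0.trans hd)
  have hg : Nat.gcd d p = 1 := by
    rw [Nat.gcd_comm]
    exact (Nat.Prime.coprime_iff_not_dvd hp.out).mpr hpd
  have e1 : ZAL.star d p = d * p := by rw [ZAL.star, hg, Nat.div_one, Nat.div_one]
  have e2 : ZAL.star (d * p) p = d := by
    rw [ZAL.star, Nat.gcd_eq_right (Dvd.intro_left d rfl), Nat.mul_div_cancel _ hp.out.pos,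
      Nat.div_self hp.out.pos, mul_one]
  have hs1 : NeZero (ZAL.star d p) := by rw [e1]; exact hdp
  have hs2 : NeZero (ZAL.star (d * p) p) := by rw [e2]; exact hd0
  have hdM : d ∣ N * p := hd.mul_right p
  have hdpM : d * p ∣ N * p := Nat.mul_dvd_mul_right hd p
  rw [jdF_eq_vj (N * p) d hdM, jdF_eq_vj (N * p) (d * p) hdpM]
  constructor
  · exact (ZAL.wF_jdF ι h d hdM).trans (ZAL.jdF_congr e1 _ _)
  · exact (ZAL.wF_jdF ι h (d * p) hdpM).trans (ZAL.jdF_congr e2 _ _)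

end AL

/-- the list of properties of the subgroups `NN` in `J₀(N p)`. -/
structure JProps (N p : ℕ) [NeZero N] [Fact p.Prime] (A : ValuationSubring Qb)
    (h : ZAL.ExDiv p (N * p)) (NN : ℕ → AddSubgroup (JZero (N * p))) : Prop where
  inertia : ∀ n : ℕ, ∀ σ ∈ A.inertiaSubgroupIn ℚ, ∀ x : JZero (N * p), n • x = 0 →
    σ • x - x ∈ NN n
  frob : ∀ n : ℕ, n ≠ 0 → ∀ Φ : GQ, A.IsFrobeniusAt Φ p → ∀ x : JZero (N * p), n • x = 0 →
    pushPic (heckeAlphaBar Qb N p) x = 0 →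
    pushPic (heckeAlphaBar Qb N p) (ZAL.wS iotaQbar h • x) = 0 →
      Φ • x + ZAL.wS iotaQbar h • x ∈ NN n
  sat : ∀ (m : ℕ) (x : JZero (N * p)), p ^ (m + 1) • x = 0 → p • x ∈ NN (p ^ (m + 1)) →
    p • x ∈ NN (p ^ m)
  cyc : ∀ ζ : Qb, IsPrimitiveRoot ζ p → ∀ (l : ℕ), ∀ σ ∈ A.inertiaSubgroupIn ℚ, σ ζ = ζ ^ l →
    ∀ x ∈ NN p, pushPic (heckeAlphaBar Qb N p) x = 0 →
      pushPic (heckeAlphaBar Qb N p) (ZAL.wS iotaQbar h • x) = 0 → σ • x = l • x
  smul : ∀ n : ℕ, ∀ τ ∈ A.decompositionSubgroup ℚ, ∀ x ∈ NN n, τ • x ∈ NN n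
  w_smul : ∀ n : ℕ, ∀ x ∈ NN n, ZAL.wS iotaQbar h • x ∈ NN n
  torsion : ∀ n : ℕ, ∀ x ∈ NN n, n • x = 0

theorem mem_torsion_iff {n : ℕ} {N : ℕ} [NeZero N] {x : JZero N} :
    x ∈ Pic0.torsion Qb (modularFunctionFieldBar N) n ↔ n • x = 0 := by
  rw [Pic0.mem_torsion, natCast_zsmul]

/-- the input from the `U`-operator -/
def HasU (p N : ℕ) [NeZero N] [hp : Fact p.Prime] (hpN : ¬ p ∣ N) : Prop :=
  ∀ (A : ValuationSubring Qb) (_ : CharP (IsLocalRing.ResidueField A) p)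
    (harch : ArchA (IsLocalRing.residue A)),
    ∃ 𝒰 : UData (twoVal A (IsLocalRing.residue A) IsLocalRing.residue_surjective harch N p hpN) p,
      𝒰.w = ww Qb N p hpN ∧
      ∀ D, 𝒰.dU D = pull (inclNr Qb N p)
        (push (inclNr Qb N p) (SemilinearAut.ofAlgAut (ww Qb N p hpN) • D)) -
          SemilinearAut.ofAlgAut (ww Qb N p hpN) • D

/-- **The subgroups `NN` in `J₀(N p)`.** -/
theorem exists_JProps (N p : ℕ) [NeZero N] [hp : Fact p.Prime] (hpN : ¬ p ∣ N)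
    (hU : HasU p N hpN) (A : ValuationSubring Qb) (hA : A.LiesOverPrime p)
    (h : ZAL.ExDiv p (N * p)) : ∃ NN, JProps N p A h NN := by
  have i1 : IsAlgClosed (IsLocalRing.ResidueField A) := isAlgClosed_residueField A
  have i2 : CharP (IsLocalRing.ResidueField A) p := charP_residueField hp.out hA
  obtain ⟨Φ, hΦ⟩ := Frob.exists_isFrobeniusAt hp.out hA
  have harch : ArchA (IsLocalRing.residue A) := archA hp.out hA
  have hN0 : (N : IsLocalRing.ResidueField A) ≠ 0 := by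
    rw [Ne, CharP.cast_eq_zero_iff _ p]
    exact hpN
  obtain ⟨NN, hNN⟩ := exists_NN_of_eq A (IsLocalRing.residue A) IsLocalRing.residue_surjective
    harch N p hpN (Cusps.genusFF_residue A N hN0) (decAut hΦ.mem_decompositionSubgroup)
    (fun a => hΦ.smul_residue_eq a) (hU A i2 harch) (laurentBaseChange_full Qb N)
    (laurentBaseChange_full Qb (N * p)) (heckeAlphaBar Qb N p) (coe_heckeAlphaBar N p)
    (ZAL.wF iotaQbar h) (isAL_wF iotaQbar N p hpN h)
  have hcoef : ∀ σ : GQ, IsCoef (arithmeticGalois (modularFunctionFieldFull (N * p)) σ)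
      (σ.toRingEquiv : Qb →+* Qb) := fun σ x => coe_arithmeticGalois_smul _ σ x
  refine ⟨NN, ?_, ?_, ?_, ?_, ?_, ?_, ?_⟩
  · intro n σ hσ x hx
    exact hNN.inertia n _ (actsBy_inertia hσ) _ (hcoef σ) x (mem_torsion_iff.mpr hx)
  · intro n hn Ψ hΨ x hx h1 h2
    exact hNN.frob n hn _ (actsBy_frob hΨ) _ (hcoef Ψ) x (mem_torsion_iff.mpr hx) h1 h2
  · intro m x hx h1
    exact hNN.sat m x (mem_torsion_iff.mpr hx) h1
  · intro ζ hζ l σ hσ hσζ x hx h1 h2
    exact hNN.cyc ζ hζ l _ (actsBy_inertia hσ) hσζ _ (hcoef σ) x hx h1 h2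
  · intro n τ hτ x hx
    exact hNN.smul n _ _ (actsBy_dec hτ) _ (hcoef τ) x hx
  · intro n x hx
    exact hNN.w_smul n x hx
  · intro n x hx
    exact mem_torsion_iff.mp (hNN.torsion n x hx)

end Fermat.Agent.ZLoc2
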